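/-
S18 / wave 4 (helper45): generic TWISTED CIRCULANT matrices, package (F1)-(F4) of report #1190
(backup file for leaf C4 = `exists_bound`).  Mathlib only.

`twCirc h t` is the matrix of multiplication by `∑ h_j T^j` on `R[T]/(T^m - t)` in the basis
`1, T, …, T^(m-1)`:  entry `(i, k)` is `h (i - k)` if `k ≤ i` and `t * h (m + i - k)` otherwise.
-/
import Mathlib

set_option autoImplicit false

open Matrix Polynomial

namespace Fermat.Agent.S18.H45

section Defs

variable {R : Type*} [CommRing R] {m : ℕ}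

/-- The cyclic difference `i - k` on `Fin m` (written out, no `NeZero`). -/
def cycSub (i k : Fin m) : Fin m :=
  ⟨if (k : ℕ) ≤ i then (i : ℕ) - k else m + i - k, by
    have hi := i.2; have hk := k.2; split_ifs <;> omega⟩

theorem cycSub_val_of_le {i k : Fin m} (h : (k : ℕ) ≤ i) : ((cycSub i k : Fin m) : ℕ) = i - k := by
  simp [cycSub, h]

theorem cycSub_val_of_lt {i k : Fin m} (h : (i : ℕ) < k) :
    ((cycSub i k : Fin m) : ℕ) = m + i - k := by
  simp [cycSub, Nat.not_le.mpr h]

/-- For fixed `k`, `i ↦ cycSub i k` is a permutation of `Fin m`. -/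
def cycSubEquiv (k : Fin m) : Fin m ≃ Fin m where
  toFun i := cycSub i k
  invFun j := ⟨if (j : ℕ) + k < m then (j : ℕ) + k else j + k - m, by
    have hj := j.2; have hk := k.2; split_ifs <;> omega⟩
  left_inv i := by
    have hi := i.2; have hk := k.2
    apply Fin.ext
    by_cases h : (k : ℕ) ≤ i
    · have h1 : ((cycSub i k : Fin m) : ℕ) = i - k := cycSub_val_of_le h
      simp only [h1]
      split_ifs <;> omega
    · have h1 : ((cycSub i k : Fin m) : ℕ) = m + i - k := cycSub_val_of_lt (Nat.not_le.mp h)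
      simp only [h1]
      split_ifs <;> omega
  right_inv j := by
    have hj := j.2; have hk := k.2
    apply Fin.ext
    by_cases h : (j : ℕ) + k < m
    · simp only [cycSub, h, if_true]
      split_ifs <;> omega
    · simp only [cycSub, h, if_false]
      split_ifs <;> omega

@[simp] theorem cycSubEquiv_apply (k i : Fin m) : cycSubEquiv k i = cycSub i k := rfl

/-- The twisted circulant matrix: entry `(i, k)` is `h (i - k)` for `k ≤ i` and
`t * h (m + i - k)` for `i < k`. -/
def twCirc (h : Fin m → R) (t : R) : Matrix (Fin m) (Fin m) R :=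
  Matrix.of fun i k => if (k : ℕ) ≤ i then h (cycSub i k) else t * h (cycSub i k)

theorem twCirc_apply (h : Fin m → R) (t : R) (i k : Fin m) :
    twCirc h t i k = if (k : ℕ) ≤ i then h (cycSub i k) else t * h (cycSub i k) := rfl

theorem twCirc_apply_of_le (h : Fin m → R) (t : R) {i k : Fin m} (hk : (k : ℕ) ≤ i) :
    twCirc h t i k = h ⟨(i : ℕ) - k, by have := i.2; omega⟩ := by
  rw [twCirc_apply, if_pos hk]
  congr 1
  exact Fin.ext (cycSub_val_of_le hk)

theorem twCirc_apply_of_lt (h : Fin m → R) (t : R) {i k : Fin m} (hk : (i : ℕ) < k) :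
    twCirc h t i k = t * h ⟨m + i - k, by have := i.2; have := k.2; omega⟩ := by
  rw [twCirc_apply, if_neg (Nat.not_le.mpr hk)]
  congr 2
  exact Fin.ext (cycSub_val_of_lt hk)

/-- (F0) `twCirc` commutes with ring homomorphisms. -/
theorem twCirc_map {S : Type*} [CommRing S] (φ : R →+* S) (h : Fin m → R) (t : R) :
    (twCirc h t).map φ = twCirc (φ ∘ h) (φ t) := by
  ext i k
  simp only [Matrix.map_apply, twCirc_apply, Function.comp_apply]
  split_ifs <;> simp

theorem det_twCirc_map {S : Type*} [CommRing S] (φ : R →+* S) (h : Fin m → R) (t : R) :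
    φ (twCirc h t).det = (twCirc (φ ∘ h) (φ t)).det := by
  rw [← twCirc_map, RingHom.map_det]
  rfl

/-- `twCirc` is homogeneous of degree one in `h`. -/
theorem twCirc_smul (c : R) (h : Fin m → R) (t : R) :
    twCirc (c • h) t = c • twCirc h t := by
  ext i k
  simp only [Matrix.smul_apply, twCirc_apply, Pi.smul_apply, smul_eq_mul]
  split_ifs <;> ring

theorem det_twCirc_smul (c : R) (h : Fin m → R) (t : R) :
    (twCirc (c • h) t).det = c ^ m * (twCirc h t).det := by
  rw [twCirc_smul, Matrix.det_smul, Fintype.card_fin]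

theorem twCirc_add (h h' : Fin m → R) (t : R) :
    twCirc (h + h') t = twCirc h t + twCirc h' t := by
  ext i k
  simp only [Matrix.add_apply, twCirc_apply, Pi.add_apply]
  split_ifs <;> ring

@[simp] theorem twCirc_zero (t : R) : twCirc (0 : Fin m → R) t = 0 := by
  ext i k
  simp [twCirc_apply]

/-- (F1) The row vector `(y^i)_i` is a left eigenvector of `twCirc h (y^m)` with eigenvalue
`∑ h_j y^j`. -/
theorem twCirc_left_eigen (h : Fin m → R) (y : R) (k : Fin m) :
    ∑ i : Fin m, y ^ (i : ℕ) * twCirc h (y ^ m) i k =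
      y ^ (k : ℕ) * ∑ j : Fin m, h j * y ^ (j : ℕ) := by
  rw [Finset.mul_sum]
  refine Fintype.sum_equiv (cycSubEquiv k) _ _ fun i => ?_
  rw [cycSubEquiv_apply, twCirc_apply]
  by_cases hk : (k : ℕ) ≤ i
  · rw [if_pos hk, cycSub_val_of_le hk]
    have : (i : ℕ) = k + (i - k) := by omega
    conv_lhs => rw [this, pow_add]
    ring
  · rw [if_neg hk, cycSub_val_of_lt (Nat.not_le.mp hk)]
    have hi := i.2; have hk' := k.2
    have : m + (i : ℕ) = k + (m + i - k) := by omega
    have e : y ^ (i : ℕ) * y ^ m = y ^ (k : ℕ) * y ^ (m + (i : ℕ) - k) := by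
      rw [← pow_add, ← pow_add]
      congr 1
      omega
    calc y ^ (i : ℕ) * (y ^ m * h (cycSub i k))
        = (y ^ (i : ℕ) * y ^ m) * h (cycSub i k) := by ring
      _ = y ^ (k : ℕ) * (h (cycSub i k) * y ^ (m + (i : ℕ) - k)) := by rw [e]; ring

/-- The same as a statement on vectors. -/
theorem twCirc_vecMul (h : Fin m → R) (y : R) :
    (fun i : Fin m => y ^ (i : ℕ)) ᵥ* twCirc h (y ^ m) =
      (∑ j : Fin m, h j * y ^ (j : ℕ)) • fun k : Fin m => y ^ (k : ℕ) := by
  funext k
  simp only [Matrix.vecMul, dotProduct, Pi.smul_apply, smul_eq_mul]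
  rw [twCirc_left_eigen]
  ring

/-- (F2) `det (twCirc h (y^m))` is `∑ h_j y^j` times the determinant of the matrix obtained by
replacing the row `0` by `(y^k)_k`. -/
theorem det_twCirc_pow_eq [NeZero m] (h : Fin m → R) (y : R) :
    (twCirc h (y ^ m)).det =
      (∑ j : Fin m, h j * y ^ (j : ℕ)) *
        ((twCirc h (y ^ m)).updateRow 0 fun k : Fin m => y ^ (k : ℕ)).det := by
  have h1 := Matrix.det_updateRow_sum (twCirc h (y ^ m)) (0 : Fin m) fun i : Fin m => y ^ (i : ℕ)
  have h2 : (∑ i : Fin m, y ^ (i : ℕ) • twCirc h (y ^ m) i) =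
      (∑ j : Fin m, h j * y ^ (j : ℕ)) • fun k : Fin m => y ^ (k : ℕ) := by
    funext k
    simp only [Finset.sum_apply, Pi.smul_apply, smul_eq_mul]
    rw [twCirc_left_eigen]
    ring
  rw [h2, Matrix.det_updateRow_smul] at h1
  simpa using h1.symm

theorem det_twCirc_pow (h : Fin m → R) (y : R) (hm : m ≠ 0) :
    ∃ c : R, (twCirc h (y ^ m)).det = (∑ j : Fin m, h j * y ^ (j : ℕ)) * c := by
  have : NeZero m := ⟨hm⟩
  exact ⟨_, det_twCirc_pow_eq h y⟩

/-- (F3) `det (twCirc h u) ≡ det (twCirc h t) mod (u - t)`. -/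
theorem det_twCirc_sub (h : Fin m → R) (t u : R) :
    (u - t) ∣ (twCirc h u).det - (twCirc h t).det := by
  rw [← Ideal.mem_span_singleton, ← Ideal.Quotient.eq_zero_iff_mem, map_sub, sub_eq_zero]
  have e : Ideal.Quotient.mk (Ideal.span {u - t}) u = Ideal.Quotient.mk (Ideal.span {u - t}) t := by
    rw [Ideal.Quotient.eq]
    exact Ideal.subset_span rfl
  rw [det_twCirc_map, det_twCirc_map, e]

end Defs

section Subring

variable {F : Type*} [CommRing F] {m : ℕ}

/-- (F2), subring form. -/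
theorem det_twCirc_pow_mem (O : Subring F) (h : Fin m → F) (hh : ∀ j, h j ∈ O) (y : F)
    (hy : y ∈ O) (hm : m ≠ 0) :
    ∃ c ∈ O, (twCirc h (y ^ m)).det = (∑ j : Fin m, h j * y ^ (j : ℕ)) * c := by
  obtain ⟨c, hc⟩ := det_twCirc_pow (fun j => (⟨h j, hh j⟩ : O)) (⟨y, hy⟩ : O) hm
  refine ⟨c, c.2, ?_⟩
  have := congrArg O.subtype hc
  rw [det_twCirc_map] at this
  simpa [Function.comp_def] using this

/-- (F3), subring form. -/
theorem det_twCirc_sub_mem (O : Subring F) (h : Fin m → F) (hh : ∀ j, h j ∈ O) (t u : F)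
    (ht : t ∈ O) (hu : u ∈ O) :
    ∃ e ∈ O, (twCirc h u).det - (twCirc h t).det = (u - t) * e := by
  obtain ⟨e, he⟩ := det_twCirc_sub (fun j => (⟨h j, hh j⟩ : O)) (⟨t, ht⟩ : O) (⟨u, hu⟩ : O)
  refine ⟨e, e.2, ?_⟩
  have := congrArg O.subtype he
  rw [map_sub, det_twCirc_map, det_twCirc_map] at this
  simpa [Function.comp_def] using this

/-- The determinant of a twisted circulant with entries in a subring lies in the subring. -/
theorem det_twCirc_mem (O : Subring F) (h : Fin m → F) (hh : ∀ j, h j ∈ O) (t : F)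
    (ht : t ∈ O) : (twCirc h t).det ∈ O := by
  have := det_twCirc_map O.subtype (fun j => (⟨h j, hh j⟩ : O)) (⟨t, ht⟩ : O)
  have h2 : (twCirc h t).det = O.subtype (twCirc (fun j => (⟨h j, hh j⟩ : O)) ⟨t, ht⟩).det := by
    rw [this]; rfl
  rw [h2]
  exact Subtype.property _

end Subring

section ValuationSubring

variable {F : Type*} [Field F] {m : ℕ}

/-- (F2) for a valuation subring. -/
theorem det_twCirc_pow_mem_valuationSubring (O : ValuationSubring F) (h : Fin m → F)
    (hh : ∀ j, h j ∈ O) (y : F) (hy : y ∈ O) (hm : m ≠ 0) :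
    ∃ c ∈ O, (twCirc h (y ^ m)).det = (∑ j : Fin m, h j * y ^ (j : ℕ)) * c :=
  det_twCirc_pow_mem O.toSubring h hh y hy hm

/-- (F3) for a valuation subring. -/
theorem det_twCirc_sub_mem_valuationSubring (O : ValuationSubring F) (h : Fin m → F)
    (hh : ∀ j, h j ∈ O) (t u : F) (ht : t ∈ O) (hu : u ∈ O) :
    ∃ e ∈ O, (twCirc h u).det - (twCirc h t).det = (u - t) * e :=
  det_twCirc_sub_mem O.toSubring h hh t u ht hu

theorem det_twCirc_mem_valuationSubring (O : ValuationSubring F) (h : Fin m → F)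
    (hh : ∀ j, h j ∈ O) (t : F) (ht : t ∈ O) : (twCirc h t).det ∈ O :=
  det_twCirc_mem O.toSubring h hh t ht

end ValuationSubring

section Field

variable {F : Type*} [Field F] {m : ℕ}

/-- The polynomial `∑ a_j X^j`, `j < m`, is zero only if all `a_j` vanish. -/
theorem sum_C_mul_X_pow_eq_zero (a : Fin m → F)
    (h : (∑ j : Fin m, C (a j) * X ^ (j : ℕ) : F[X]) = 0) : a = 0 := by
  funext j
  have := congrArg (fun p : F[X] => p.coeff (j : ℕ)) h
  simp only [Polynomial.finsetSum_coeff, Polynomial.coeff_C_mul_X_pow, Polynomial.coeff_zero]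
    at this
  rw [Finset.sum_eq_single j] at this
  · simpa using this
  · intro b _ hb
    rw [if_neg]
    exact fun hjb => hb (Fin.ext hjb.symm)
  · intro hj
    exact absurd (Finset.mem_univ j) hj

/-- (F4) If `X^m - u` is irreducible and `h ≠ 0` then `det (twCirc h u) ≠ 0`
(multiplication by a nonzero element of the field `F[T]/(T^m - u)` is injective). -/
theorem det_twCirc_ne_zero (u : F) (hirr : Irreducible (X ^ m - C u : F[X])) (h : Fin m → F)
    (hh : h ≠ 0) : (twCirc h u).det ≠ 0 := by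
  intro hdet
  have hm : 0 < m := by
    rcases Nat.eq_zero_or_pos m with h0 | h0
    · subst h0
      exact absurd (Subsingleton.elim h 0) hh
    · exact h0
  obtain ⟨a, ha, hMa⟩ := Matrix.exists_mulVec_eq_zero_iff.mpr hdet
  have hfact : Fact (Irreducible (X ^ m - C u : F[X])) := ⟨hirr⟩
  let φ : F →+* AdjoinRoot (X ^ m - C u : F[X]) := AdjoinRoot.of _
  let y : AdjoinRoot (X ^ m - C u : F[X]) := AdjoinRoot.root _
  have hy : y ^ m = φ u := by
    have h0 : Polynomial.eval₂ (AdjoinRoot.of (X ^ m - C u : F[X])) (AdjoinRoot.root _)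
        (X ^ m - C u : F[X]) = 0 := AdjoinRoot.eval₂_root _
    rw [Polynomial.eval₂_sub, Polynomial.eval₂_pow, Polynomial.eval₂_X, Polynomial.eval₂_C,
      sub_eq_zero] at h0
    exact h0
  have hdeg : (X ^ m - C u : F[X]).degree = m := Polynomial.degree_X_pow_sub_C hm u
  -- the key identity in the field `AdjoinRoot (X ^ m - C u)`
  have key : (∑ j : Fin m, φ (h j) * y ^ (j : ℕ)) * (∑ k : Fin m, φ (a k) * y ^ (k : ℕ)) = 0 := by
    have h1 : ∀ k : Fin m, ∑ i : Fin m, y ^ (i : ℕ) * twCirc (φ ∘ h) (y ^ m) i k =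
        y ^ (k : ℕ) * ∑ j : Fin m, (φ ∘ h) j * y ^ (j : ℕ) :=
      fun k => twCirc_left_eigen (φ ∘ h) y k
    have h2 : ∀ i : Fin m, ∑ k : Fin m, twCirc (φ ∘ h) (y ^ m) i k * φ (a k) = 0 := by
      intro i
      have := congrFun hMa i
      simp only [Matrix.mulVec, dotProduct, Pi.zero_apply] at this
      have h3 := congrArg φ this
      rw [map_sum, map_zero] at h3
      rw [← h3, hy, ← twCirc_map]
      refine Finset.sum_congr rfl fun k _ => ?_
      rw [map_mul, Matrix.map_apply]
    calc (∑ j : Fin m, φ (h j) * y ^ (j : ℕ)) * (∑ k : Fin m, φ (a k) * y ^ (k : ℕ))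
        = ∑ k : Fin m, (y ^ (k : ℕ) * ∑ j : Fin m, (φ ∘ h) j * y ^ (j : ℕ)) * φ (a k) := by
          rw [Finset.mul_sum]
          refine Finset.sum_congr rfl fun k _ => ?_
          simp only [Function.comp_apply]
          ring
      _ = ∑ k : Fin m, (∑ i : Fin m, y ^ (i : ℕ) * twCirc (φ ∘ h) (y ^ m) i k) * φ (a k) := by
          refine Finset.sum_congr rfl fun k _ => ?_
          rw [h1]
      _ = ∑ i : Fin m, y ^ (i : ℕ) * ∑ k : Fin m, twCirc (φ ∘ h) (y ^ m) i k * φ (a k) := by
          simp only [Finset.sum_mul, Finset.mul_sum]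
          rw [Finset.sum_comm]
          refine Finset.sum_congr rfl fun i _ => Finset.sum_congr rfl fun k _ => ?_
          ring
      _ = 0 := by
          simp only [h2, mul_zero, Finset.sum_const_zero]
  -- both factors are classes of polynomials of degree `< m`
  have hcls : ∀ b : Fin m → F, (∑ j : Fin m, φ (b j) * y ^ (j : ℕ)) =
      AdjoinRoot.mk (X ^ m - C u : F[X]) (∑ j : Fin m, C (b j) * X ^ (j : ℕ)) := by
    intro b
    rw [map_sum]
    refine Finset.sum_congr rfl fun j _ => ?_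
    rw [map_mul, map_pow, AdjoinRoot.mk_C, AdjoinRoot.mk_X]
  have hzero : ∀ b : Fin m → F, (∑ j : Fin m, φ (b j) * y ^ (j : ℕ)) = 0 → b = 0 := by
    intro b hb
    rw [hcls, AdjoinRoot.mk_eq_zero] at hb
    apply sum_C_mul_X_pow_eq_zero
    by_contra hne
    have h1 := Polynomial.degree_le_of_dvd hb hne
    have h2 : (∑ j : Fin m, C (b j) * X ^ (j : ℕ) : F[X]).degree < m :=
      Polynomial.degree_sum_fin_lt b
    rw [hdeg] at h1
    exact absurd (lt_of_le_of_lt h1 h2) (lt_irrefl _)
  rcases mul_eq_zero.mp key with h0 | h0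
  · exact hh (hzero h h0)
  · exact ha (hzero a h0)

/-- (F4) for a prime exponent: if `u` is not an `m`-th power then `det (twCirc h u) ≠ 0` for
every `h ≠ 0`. -/
theorem det_twCirc_ne_zero_of_prime (hmp : m.Prime) (u : F) (hnot : ¬ ∃ w : F, u = w ^ m)
    (h : Fin m → F) (hh : h ≠ 0) : (twCirc h u).det ≠ 0 :=
  det_twCirc_ne_zero u
    (X_pow_sub_C_irreducible_of_prime hmp fun b hb => hnot ⟨b, hb.symm⟩) h hh

end Field

end Fermat.Agent.S18.H45
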