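/-
S18 / wave 4 (helper45): the generic CONSUMER of the local discriminant lemma (`discLocal`,
piece D7 of report #1179).  Mathlib only.

Setting (the variable block of `Fermat.Agent.S18.H8.discLocal`): `O` a DVR with fraction field
`K`, `L / K` a finite field extension, `B` an `O`-subalgebra of `L` which is free over `O` on a
`K`-basis `b` of `L`, and `hcl : ∀ x : L, IsIntegral O x → x ∈ B` (the conclusion of `discLocal`).

Then: `B = integralClosure O L`, `B` is a Dedekind domain with finitely many primes, hence a PID;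
`B` is root-closed in `L`; and a maximal ideal `n` of `B` of residue degree one is generated by an
element whose norm is a uniformiser of `O` times a unit.
-/
import Mathlib

set_option autoImplicit false
set_option linter.unusedSectionVars false

open Module

namespace Fermat.Agent.S18.H45

section Closed

variable {O K L : Type*} [CommRing O] [IsDomain O] [IsDiscreteValuationRing O]
  [Field K] [Algebra O K] [IsFractionRing O K]
  [Field L] [Algebra K L] [Algebra O L] [IsScalarTower O K L] [FiniteDimensional K L]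
  (B : Subalgebra O L) {ι : Type*} [Fintype ι] (b : Module.Basis ι K L)

/-- `B` is a finitely generated `O`-module. -/
theorem fg_of_basis (hbB : ∀ i, b i ∈ B) (hBb : ∀ x ∈ B, ∃ c : ι → O, x = ∑ i, c i • b i) :
    (Subalgebra.toSubmodule B).FG := by
  classical
  refine ⟨Finset.univ.image b, ?_⟩
  apply le_antisymm
  · rw [Submodule.span_le]
    intro x hx
    simp only [Finset.coe_image, Finset.coe_univ, Set.image_univ, Set.mem_range] at hx
    obtain ⟨i, rfl⟩ := hx
    exact hbB i
  · intro x hx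
    obtain ⟨c, rfl⟩ := hBb x hx
    exact Submodule.sum_mem _ (fun i _ => Submodule.smul_mem _ _
      (Submodule.subset_span (by simp)))

/-- Elements of `B` are integral over `O`. -/
theorem isIntegral_of_mem (hbB : ∀ i, b i ∈ B) (hBb : ∀ x ∈ B, ∃ c : ι → O, x = ∑ i, c i • b i)
    {x : L} (hx : x ∈ B) : IsIntegral O x :=
  IsIntegral.of_mem_of_fg B (fg_of_basis B b hbB hBb) x hx

/-- (E1) `B` is the integral closure of `O` in `L`. -/
theorem eq_integralClosure (hbB : ∀ i, b i ∈ B)
    (hBb : ∀ x ∈ B, ∃ c : ι → O, x = ∑ i, c i • b i) (hcl : ∀ x : L, IsIntegral O x → x ∈ B) :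
    B = integralClosure O L := by
  ext x
  exact ⟨fun hx => isIntegral_of_mem B b hbB hBb hx, hcl x⟩

/-- The `O`-basis `⟨b i, _⟩` of `B`. -/
noncomputable def basisOfClosed (hbB : ∀ i, b i ∈ B)
    (hBb : ∀ x ∈ B, ∃ c : ι → O, x = ∑ i, c i • b i) : Module.Basis ι O B :=
  Module.Basis.mk (v := fun i => (⟨b i, hbB i⟩ : B))
    (by
      have h1 : LinearIndependent O (fun i => b i) :=
        b.linearIndependent.restrict_scalars (by
          intro r s hrs
          simp only [Algebra.smul_def, mul_one] at hrs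
          exact IsFractionRing.injective O K hrs)
      exact LinearIndependent.of_comp (Subalgebra.toSubmodule B).subtype h1)
    (by
      rintro ⟨x, hx⟩ -
      obtain ⟨c, hc⟩ := hBb x hx
      have : (⟨x, hx⟩ : B) = ∑ i, c i • (⟨b i, hbB i⟩ : B) := by
        apply Subtype.ext
        simp only [hc, AddSubmonoidClass.coe_finsetSum, SetLike.val_smul]
      rw [this]
      exact Submodule.sum_mem _ fun i _ =>
        Submodule.smul_mem _ _ (Submodule.subset_span ⟨i, rfl⟩))

@[simp] theorem basisOfClosed_apply (hbB : ∀ i, b i ∈ B)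
    (hBb : ∀ x ∈ B, ∃ c : ι → O, x = ∑ i, c i • b i) (i : ι) :
    ((basisOfClosed B b hbB hBb i : B) : L) = b i := by
  simp [basisOfClosed]

/-- Coordinates with respect to `b` of an element of `B` are the images of its coordinates with
respect to `basisOfClosed`. -/
theorem repr_basisOfClosed (hbB : ∀ i, b i ∈ B)
    (hBb : ∀ x ∈ B, ∃ c : ι → O, x = ∑ i, c i • b i) (y : B) (i : ι) :
    b.repr (y : L) i = algebraMap O K ((basisOfClosed B b hbB hBb).repr y i) := by
  have h1 : (y : L) = ∑ j, algebraMap O K ((basisOfClosed B b hbB hBb).repr y j) • b j := by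
    conv_lhs => rw [← (basisOfClosed B b hbB hBb).sum_repr y]
    simp only [AddSubmonoidClass.coe_finsetSum, SetLike.val_smul, basisOfClosed_apply,
      algebraMap_smul]
  conv_lhs => rw [h1]
  rw [Module.Basis.repr_sum_self]

/-- The norm over `K` of an element of `B` is the image of its norm over `O`. -/
theorem norm_eq_algebraMap_norm (hbB : ∀ i, b i ∈ B)
    (hBb : ∀ x ∈ B, ∃ c : ι → O, x = ∑ i, c i • b i) (y : B) :
    Algebra.norm K (y : L) = algebraMap O K (Algebra.norm O y) := by
  classical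
  rw [Algebra.norm_eq_matrix_det b, Algebra.norm_eq_matrix_det (basisOfClosed B b hbB hBb),
    RingHom.map_det]
  congr 1
  ext i j
  rw [RingHom.mapMatrix_apply, Matrix.map_apply, Algebra.leftMulMatrix_eq_repr_mul,
    Algebra.leftMulMatrix_eq_repr_mul, ← repr_basisOfClosed B b hbB hBb]
  simp

/-- (E2) `B` is a Dedekind domain. -/
theorem isDedekindDomain_of_closed (hbB : ∀ i, b i ∈ B)
    (hBb : ∀ x ∈ B, ∃ c : ι → O, x = ∑ i, c i • b i) (hcl : ∀ x : L, IsIntegral O x → x ∈ B) :
    IsDedekindDomain B := by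
  have hfin : Module.Finite O B := Module.Finite.of_basis (basisOfClosed B b hbB hBb)
  have h1 : IsNoetherianRing B := IsNoetherianRing.of_finite O B
  have h2 : Ring.DimensionLEOne B := Ring.DimensionLEOne.of_isIntegral O B
  have h3 : IsIntegrallyClosed B := by
    obtain rfl := eq_integralClosure B b hbB hBb hcl
    exact integralClosure.isIntegrallyClosedOfFiniteExtension K
  exact { toIsDomain := inferInstance
          toIsDedekindRing := { toIsNoetherian := h1, toDimensionLEOne := h2,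
                                toIsIntegralClosure := h3 } }

/-- Every nonzero prime of `B` contains the uniformiser. -/
theorem uniformizer_mem_of_prime (hbB : ∀ i, b i ∈ B)
    (hBb : ∀ x ∈ B, ∃ c : ι → O, x = ∑ i, c i • b i) {ϖ : O} (hϖ : Irreducible ϖ)
    (P : Ideal B) (hP : P.IsPrime) (hP0 : P ≠ ⊥) : algebraMap O B ϖ ∈ P := by
  have hint : Algebra.IsIntegral O B :=
    ⟨fun y => by
      have := isIntegral_of_mem B b hbB hBb y.2
      exact (isIntegral_algebraMap_iff (B := L) (Subtype.val_injective)).1 this⟩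
  have hc : P.comap (algebraMap O B) ≠ ⊥ := fun h => hP0 (Ideal.eq_bot_of_comap_eq_bot h)
  have hprime : (P.comap (algebraMap O B)).IsPrime := Ideal.comap_isPrime _ _
  have hmax : (P.comap (algebraMap O B)).IsMaximal := hprime.isMaximal hc
  have heq := IsLocalRing.eq_maximalIdeal hmax
  have hmem : ϖ ∈ IsLocalRing.maximalIdeal O := by
    rw [IsLocalRing.mem_maximalIdeal]
    exact hϖ.not_isUnit
  rw [← heq] at hmem
  exact hmem

/-- (E3) `B` is a principal ideal domain. -/
theorem isPrincipalIdealRing_of_closed (hbB : ∀ i, b i ∈ B)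
    (hBb : ∀ x ∈ B, ∃ c : ι → O, x = ∑ i, c i • b i) (hcl : ∀ x : L, IsIntegral O x → x ∈ B) :
    IsPrincipalIdealRing B := by
  have hD : IsDedekindDomain B := isDedekindDomain_of_closed B b hbB hBb hcl
  obtain ⟨ϖ, hϖ⟩ := IsDiscreteValuationRing.exists_irreducible O
  have hinj : Function.Injective (algebraMap O B) := by
    intro r s hrs
    have h1 : algebraMap O L r = algebraMap O L s := congrArg Subtype.val hrs
    rw [IsScalarTower.algebraMap_apply O K L, IsScalarTower.algebraMap_apply O K L] at h1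
    exact IsFractionRing.injective O K ((algebraMap K L).injective h1)
  have hϖB : algebraMap O B ϖ ≠ 0 := (map_ne_zero_iff _ hinj).2 hϖ.ne_zero
  have hI : (Ideal.span {algebraMap O B ϖ} : Ideal B) ≠ 0 := by
    rw [Ne, Ideal.zero_eq_bot, Ideal.span_singleton_eq_bot]
    exact hϖB
  apply IsPrincipalIdealRing.of_finite_primes
  refine ((Ideal.finite_factors hI).image
    (fun v : IsDedekindDomain.HeightOneSpectrum B => v.asIdeal)).insert ⊥ |>.subset ?_
  intro P hP
  by_cases hP0 : P = ⊥
  · exact Or.inl hP0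
  · refine Or.inr ⟨⟨P, hP, hP0⟩, ?_, rfl⟩
    change P ∣ Ideal.span {algebraMap O B ϖ}
    rw [Ideal.dvd_iff_le, Ideal.span_singleton_le_iff_mem]
    exact uniformizer_mem_of_prime B b hbB hBb hϖ P hP hP0

/-- (E4) `B` is root-closed in `L`. -/
theorem mem_of_pow_mem (hint : ∀ x ∈ B, IsIntegral O x) (hcl : ∀ x : L, IsIntegral O x → x ∈ B)
    (y : L) (m : ℕ) (hm : m ≠ 0) (hy : y ^ m ∈ B) : y ∈ B :=
  hcl y (IsIntegral.of_pow (Nat.pos_of_ne_zero hm) (hint _ hy))

/-- (E4) in terms of the basis. -/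
theorem mem_of_pow_mem_of_basis (hbB : ∀ i, b i ∈ B)
    (hBb : ∀ x ∈ B, ∃ c : ι → O, x = ∑ i, c i • b i) (hcl : ∀ x : L, IsIntegral O x → x ∈ B)
    (y : L) (m : ℕ) (hm : m ≠ 0) (hy : y ^ m ∈ B) : y ∈ B :=
  mem_of_pow_mem B (fun _ hx => isIntegral_of_mem B b hbB hBb hx) hcl y m hm hy

/-- (E4') `B` is integrally closed in `L`, also for polynomials with coefficients in `B`. -/
theorem mem_of_isIntegral_over (hbB : ∀ i, b i ∈ B)
    (hBb : ∀ x ∈ B, ∃ c : ι → O, x = ∑ i, c i • b i) (hcl : ∀ x : L, IsIntegral O x → x ∈ B)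
    (y : L) (hy : IsIntegral B y) : y ∈ B := by
  have hint : Algebra.IsIntegral O B :=
    ⟨fun z => by
      have := isIntegral_of_mem B b hbB hBb z.2
      exact (isIntegral_algebraMap_iff (B := L) (Subtype.val_injective)).1 this⟩
  exact hcl y (isIntegral_trans (R := O) (A := B) y hy)

end Closed

section Norm

variable {O K L : Type*} [CommRing O] [IsDomain O] [IsDiscreteValuationRing O]
  [Field K] [Algebra O K] [IsFractionRing O K]
  [Field L] [Algebra K L] [Algebra O L] [IsScalarTower O K L] [FiniteDimensional K L]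
  (B : Subalgebra O L) {ι : Type*} [Fintype ι] (b : Module.Basis ι K L)

/-- Every maximal ideal of `B` contains the uniformiser. -/
theorem uniformizer_mem_of_maximal (hbB : ∀ i, b i ∈ B)
    (hBb : ∀ x ∈ B, ∃ c : ι → O, x = ∑ i, c i • b i) {ϖ : O} (hϖ : Irreducible ϖ)
    (n : Ideal B) (hn : n.IsMaximal) : algebraMap O B ϖ ∈ n := by
  have hint : Algebra.IsIntegral O B :=
    ⟨fun y => by
      have := isIntegral_of_mem B b hbB hBb y.2
      exact (isIntegral_algebraMap_iff (B := L) (Subtype.val_injective)).1 this⟩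
  have hmax : (n.comap (algebraMap O B)).IsMaximal :=
    Ideal.isMaximal_comap_of_isIntegral_of_isMaximal n
  have heq := IsLocalRing.eq_maximalIdeal hmax
  have hmem : ϖ ∈ IsLocalRing.maximalIdeal O := by
    rw [IsLocalRing.mem_maximalIdeal]
    exact hϖ.not_isUnit
  rw [← heq] at hmem
  exact hmem

/-- (E5) A generator of a maximal ideal of residue degree one has norm `ϖ * unit`. -/
theorem norm_of_generator (hbB : ∀ i, b i ∈ B)
    (hBb : ∀ x ∈ B, ∃ c : ι → O, x = ∑ i, c i • b i) {ϖ : O} (hϖ : Irreducible ϖ)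
    (n : Ideal B) (hn : n.IsMaximal) (hdeg : ∀ x : B, ∃ a : O, x - algebraMap O B a ∈ n)
    (τ : B) (hτ : n = Ideal.span {τ}) :
    ∃ ε : O, IsUnit ε ∧ Algebra.norm K (τ : L) = algebraMap O K (ϖ * ε) := by
  classical
  have hinj : Function.Injective (algebraMap O B) := by
    intro r s hrs
    have h1 : algebraMap O L r = algebraMap O L s := congrArg Subtype.val hrs
    rw [IsScalarTower.algebraMap_apply O K L, IsScalarTower.algebraMap_apply O K L] at h1
    exact IsFractionRing.injective O K ((algebraMap K L).injective h1)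
  have hϖB : algebraMap O B ϖ ≠ 0 := (map_ne_zero_iff _ hinj).2 hϖ.ne_zero
  have hϖn : algebraMap O B ϖ ∈ Ideal.span {τ} := by
    rw [← hτ]
    exact uniformizer_mem_of_maximal B b hbB hBb hϖ n hn
  have hτ0 : τ ≠ 0 := by
    rintro rfl
    rw [Ideal.mem_span_singleton, zero_dvd_iff] at hϖn
    exact hϖB hϖn
  have hI : (Ideal.span {τ} : Ideal B) ≠ ⊥ := Ideal.span_singleton_eq_bot.not.2 hτ0
  have hne_top : (Ideal.span {τ} : Ideal B) ≠ ⊤ := by
    rw [← hτ]
    exact hn.ne_top
  set bB := basisOfClosed B b hbB hBb with hbBdef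
  set a : ι → O := fun i => Ideal.smithCoeffs bB (Ideal.span {τ}) hI i with ha
  have hassoc : Associated (Algebra.norm O τ) (∏ i, a i) :=
    associated_norm_prod_smith bB hτ0
  let e : (B ⧸ (Ideal.span {τ} : Ideal B)) ≃ₗ[O]
      ∀ i, O ⧸ Ideal.span ({a i} : Set O) :=
    Ideal.quotientEquivPiSpan (Ideal.span {τ}) bB hI
  set w := e (Ideal.Quotient.mk _ 1) with hw
  have hsm : ∀ (c : O) (x : B), c • (Ideal.Quotient.mk (Ideal.span {τ}) x) =
      Ideal.Quotient.mk (Ideal.span {τ}) (algebraMap O B c * x) := by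
    intro c x
    rw [← Algebra.smul_def]
    rfl
  -- (a) `w` generates
  have hgen : ∀ f : (∀ i, O ⧸ Ideal.span ({a i} : Set O)), ∃ c : O, f = c • w := by
    intro f
    obtain ⟨x, hx⟩ := Ideal.Quotient.mk_surjective (e.symm f)
    obtain ⟨c, hc⟩ := hdeg x
    refine ⟨c, ?_⟩
    rw [hτ] at hc
    have h1 : Ideal.Quotient.mk (Ideal.span {τ}) x =
        c • Ideal.Quotient.mk (Ideal.span {τ}) (1 : B) := by
      rw [hsm, mul_one, Ideal.Quotient.eq]
      exact hc
    have h2 : f = e (Ideal.Quotient.mk _ x) := by rw [hx, LinearEquiv.apply_symm_apply]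
    rw [h2, h1, LinearEquiv.map_smul]
  -- (b) `ϖ` kills `w`
  have hkill : ϖ • w = 0 := by
    rw [hw, ← LinearEquiv.map_smul]
    have : ϖ • Ideal.Quotient.mk (Ideal.span {τ}) (1 : B) = 0 := by
      rw [hsm, mul_one, Ideal.Quotient.eq_zero_iff_mem]
      exact hϖn
    rw [this, LinearEquiv.map_zero]
  -- (c) `w ≠ 0`
  have hw0 : w ≠ 0 := by
    rw [hw, Ne, LinearEquiv.map_eq_zero_iff, Ideal.Quotient.eq_zero_iff_mem,
      ← Ideal.eq_top_iff_one]
    exact hne_top
  obtain ⟨i₀, hi₀⟩ : ∃ i, w i ≠ 0 := by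
    by_contra hcon
    exact hw0 (funext fun i => by
      by_contra hne
      exact hcon ⟨i, hne⟩)
  have hnonunit : ∀ c : O, ¬ IsUnit c → ∃ d, c = ϖ * d := by
    intro c hc
    have : c ∈ IsLocalRing.maximalIdeal O := (IsLocalRing.mem_maximalIdeal c).2 hc
    rw [hϖ.maximalIdeal_eq, Ideal.mem_span_singleton] at this
    exact this
  -- the coefficients away from `i₀` are units
  have hunit : ∀ i, i ≠ i₀ → IsUnit (a i) := by
    intro i hi
    obtain ⟨c, hc⟩ := hgen (Pi.single i 1)
    have h1 : c • w i₀ = 0 := by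
      have := congrFun hc i₀
      rw [Pi.single_eq_of_ne (Ne.symm hi)] at this
      rw [Pi.smul_apply] at this
      exact this.symm
    have hcu : ¬ IsUnit c := by
      intro hu
      apply hi₀
      have := congrArg (fun z => (hu.unit⁻¹ : Oˣ) • z) h1
      simpa [Units.smul_def, smul_smul] using this
    obtain ⟨d, rfl⟩ := hnonunit c hcu
    have h2 : (Pi.single i 1 : ∀ i, O ⧸ Ideal.span ({a i} : Set O)) = 0 := by
      rw [hc, mul_comm, mul_smul, hkill, smul_zero]
    have h3 := congrFun h2 i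
    rw [Pi.single_eq_same, Pi.zero_apply] at h3
    have h4 : (1 : O) ∈ Ideal.span ({a i} : Set O) := by
      rw [← Ideal.Quotient.eq_zero_iff_mem]
      exact h3
    rw [← Ideal.eq_top_iff_one, Ideal.span_singleton_eq_top] at h4
    exact h4
  -- the coefficient at `i₀` is associated to `ϖ`
  have hi₀nu : ¬ IsUnit (a i₀) := by
    intro hu
    apply hi₀
    have htop : Ideal.span ({a i₀} : Set O) = ⊤ := Ideal.span_singleton_eq_top.2 hu
    have hss : Subsingleton (O ⧸ Ideal.span ({a i₀} : Set O)) :=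
      Ideal.Quotient.subsingleton_iff.2 htop
    exact Subsingleton.elim _ _
  have hdvd : a i₀ ∣ ϖ := by
    obtain ⟨c, hc⟩ := hgen (Pi.single i₀ 1)
    have h2 : ϖ • (Pi.single i₀ 1 : ∀ i, O ⧸ Ideal.span ({a i} : Set O)) = 0 := by
      rw [hc, smul_comm, hkill, smul_zero]
    have h3 := congrFun h2 i₀
    rw [Pi.smul_apply, Pi.single_eq_same, Pi.zero_apply] at h3
    have h4 : ϖ ∈ Ideal.span ({a i₀} : Set O) := by
      rw [← Ideal.Quotient.eq_zero_iff_mem, ← h3]
      have : ∀ c : O, c • (1 : O ⧸ Ideal.span ({a i₀} : Set O)) =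
          Ideal.Quotient.mk (Ideal.span ({a i₀} : Set O)) c := by
        intro c
        have h7 : c • (Ideal.Quotient.mk (Ideal.span ({a i₀} : Set O)) 1) =
            Ideal.Quotient.mk (Ideal.span ({a i₀} : Set O)) (c • 1) := rfl
        rw [← map_one (Ideal.Quotient.mk (Ideal.span ({a i₀} : Set O))), h7, smul_eq_mul, mul_one]
      rw [this]
    exact Ideal.mem_span_singleton.1 h4
  obtain ⟨d, hd⟩ := hdvd
  have hdu : IsUnit d := (hϖ.isUnit_or_isUnit hd).resolve_left hi₀nu
  have hprod : ∏ i, a i = a i₀ * ∏ i ∈ Finset.univ.erase i₀, a i :=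
    (Finset.mul_prod_erase Finset.univ a (Finset.mem_univ i₀)).symm
  have hUu : IsUnit (∏ i ∈ Finset.univ.erase i₀, a i) := by
    rw [IsUnit.prod_iff]
    intro i hi
    exact hunit i (Finset.ne_of_mem_erase hi)
  obtain ⟨v, hv⟩ := hassoc
  -- norm * v = a i₀ * U, ϖ = a i₀ * d
  refine ⟨(↑hdu.unit⁻¹ : O) * (∏ i ∈ Finset.univ.erase i₀, a i) * (↑v⁻¹ : O),
    ((Units.isUnit _).mul hUu).mul (Units.isUnit _), ?_⟩
  rw [norm_eq_algebraMap_norm B b hbB hBb]
  congr 1
  have h5 : Algebra.norm O τ = (∏ i, a i) * (↑v⁻¹ : O) := by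
    rw [← hv, mul_assoc, Units.mul_inv, mul_one]
  rw [h5, hprod, hd]
  have h6 : d * (↑hdu.unit⁻¹ : O) = 1 := by
    have := hdu.unit.mul_inv
    exact_mod_cast this
  calc (a i₀ * ∏ i ∈ Finset.univ.erase i₀, a i) * (↑v⁻¹ : O)
      = a i₀ * (d * (↑hdu.unit⁻¹ : O)) * (∏ i ∈ Finset.univ.erase i₀, a i) * (↑v⁻¹ : O) := by
        rw [h6]; ring
    _ = a i₀ * d * ((↑hdu.unit⁻¹ : O) * (∏ i ∈ Finset.univ.erase i₀, a i) * (↑v⁻¹ : O)) := by
        ring

/-- (E5) A maximal ideal of residue degree one of `B` is generated by an element whose norm is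
a uniformiser times a unit. -/
theorem exists_generator_norm (hbB : ∀ i, b i ∈ B)
    (hBb : ∀ x ∈ B, ∃ c : ι → O, x = ∑ i, c i • b i) (hcl : ∀ x : L, IsIntegral O x → x ∈ B)
    {ϖ : O} (hϖ : Irreducible ϖ)
    (n : Ideal B) (hn : n.IsMaximal) (hdeg : ∀ x : B, ∃ a : O, x - algebraMap O B a ∈ n) :
    ∃ τ : B, n = Ideal.span {τ} ∧
      ∃ ε : O, IsUnit ε ∧ Algebra.norm K (τ : L) = algebraMap O K (ϖ * ε) := by
  have hpid : IsPrincipalIdealRing B := isPrincipalIdealRing_of_closed B b hbB hBb hcl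
  obtain ⟨τ, hτ⟩ := (IsPrincipalIdealRing.principal n).principal
  have hτ' : n = Ideal.span {τ} := hτ
  exact ⟨τ, hτ', norm_of_generator B b hbB hBb hϖ n hn hdeg τ hτ'⟩

end Norm

end Fermat.Agent.S18.H45
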